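/-
S55 / block NIT / abstract Hasse norm theorem (Abs): definitions.
Glue between the first inequality (NIT/FI, global S-unit form), the second inequality (NIT/SI,
abstract local data `LocData`) and the Kummer extensions `L = K(b^(1/p))`.
-/
import Fermat.Agent.S55.NIT.FI.Defs
import Fermat.Agent.S55.NIT.SI.Defs

set_option autoImplicit false

namespace Fermat.Agent.S55.NIT.Abs

open IsDedekindDomain NumberField Fermat.Agent.S55.NIT

universe u

variable (p : ℕ) (K : Type u) [Field K] [NumberField K]

/-- Compatibility of the abstract local data with one Kummer extension `L = K(β)`, `β^p = b`. -/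
structure CompatWith (D : SI.LocData p K) (L : Type u) [Field L] [NumberField L] [Algebra K L]
    (b : Kˣ) : Prop where
  /-- global norms are local norms everywhere -/
  norm_mem : ∀ (v : SI.Pl K) (z : Lˣ), FI.normU K L z ∈ D.nrm b v
  /-- at a place with only one prime above, the local norm group is proper -/
  nrm_ne_top : ∀ v : SI.Pl K, (v.asIdeal.primesOver (𝓞 L)).ncard = 1 → D.nrm b v ≠ ⊤

/-- Compatibility of the abstract local data with all Kummer extensions of degree `p`. -/
def Compat (D : SI.LocData p K) : Prop :=
  ∀ (L : Type u) [Field L] [NumberField L] [Algebra K L] [IsGalois K L],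
    Module.finrank K L = p → ∀ (b : Kˣ) (β : L), β ^ p = algebraMap K L (b : K) →
      (∀ z : Kˣ, z ^ p ≠ b) → CompatWith p K D L b

end Fermat.Agent.S55.NIT.Abs
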