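/-
S55 / NIT / Abs, node AB-11 (helper227).  **N5**: a Galois extension of number fields of prime
degree has nonsplit places outside every finite set (from the Frobenius density theorem
`Lib/FrobDensity`).
-/
import Fermat.Agent.S55.NIT.Abs.Defs
import Fermat.Agent.S55.NIT.SI.GaloisHull
import Fermat.Agent.Lib.FrobDensity.Stabilizer

set_option autoImplicit false

namespace Fermat.Agent.S55.NIT.Abs

open IsDedekindDomain NumberField Fermat.Agent.S55.NIT Fermat.Agent.S55.NIT.Abs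
open scoped Pointwise

universe u

variable {p : ℕ} {K : Type u} [Field K] [NumberField K]

/-- If `s ∈ Gal(L/K)` is the restriction of `σ ∈ Gal(E/ℚ)` and `σ` fixes the prime `P` of `E`, then
`s` fixes the prime of `L` below `P`. -/
theorem Nonsplit.smul_under_eq {L E : Type*} [Field L] [NumberField L] [Algebra K L]
    [Field E] [NumberField E] [Algebra L E] (s : L ≃ₐ[K] L) (σ : E ≃ₐ[ℚ] E)
    (hs : ∀ y : L, algebraMap L E (s y) = σ (algebraMap L E y)) (P : Ideal (𝓞 E))
    (hP : σ • P = P) : s • P.under (𝓞 L) = P.under (𝓞 L) := by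
  have hinv : ∀ y : L, algebraMap L E (s⁻¹ y) = σ⁻¹ (algebraMap L E y) := by
    intro y
    apply σ.injective
    rw [← hs]
    show algebraMap L E (s (s.symm y)) = σ (σ.symm (algebraMap L E y))
    rw [AlgEquiv.apply_symm_apply, AlgEquiv.apply_symm_apply]
  have hO : ∀ x : 𝓞 L, algebraMap (𝓞 L) (𝓞 E) (s⁻¹ • x) = σ⁻¹ • algebraMap (𝓞 L) (𝓞 E) x := by
    intro x
    apply RingOfIntegers.ext
    exact hinv x
  ext x
  rw [Ideal.mem_pointwise_smul_iff_inv_smul_mem, Ideal.under_def, Ideal.mem_comap, Ideal.mem_comap,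
    hO, ← Ideal.mem_pointwise_smul_iff_inv_smul_mem, hP]

/-- AB-11 (file Nonsplit.lean). **N5**: a Galois extension of prime degree has nonsplit places
outside every finite set. -/
theorem exists_nonsplit {L : Type u} [Field L] [NumberField L] [Algebra K L] [IsGalois K L]
    (hp : p.Prime) (hdeg : Module.finrank K L = p) (T₀ : Finset (SI.Pl K)) :
    ∃ v : SI.Pl K, v ∉ T₀ ∧ (v.asIdeal.primesOver (𝓞 L)).ncard = 1 := by
  classical
  obtain ⟨E, _, _, _, _, -, -, -, -⟩ := SI.exists_galois_hull (K := L) (p := 1) one_pos 1 1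
  letI : Algebra K E := ((algebraMap L E).comp (algebraMap K L)).toAlgebra
  haveI : IsScalarTower K L E := IsScalarTower.of_algebraMap_eq fun _ => rfl
  haveI : IsGalois K E := IsGalois.tower_top_of_isGalois ℚ K E
  -- a nontrivial element of `Gal(L/K)` and a lift to `E`
  have hcard : Nat.card (L ≃ₐ[K] L) = p := by rw [IsGalois.card_aut_eq_finrank, hdeg]
  haveI : Fact (Nat.card (L ≃ₐ[K] L)).Prime := ⟨hcard ▸ hp⟩
  haveI : Nontrivial (L ≃ₐ[K] L) := by
    rw [← Finite.one_lt_card_iff_nontrivial, hcard]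
    exact hp.one_lt
  obtain ⟨s, hs1⟩ := exists_ne (1 : L ≃ₐ[K] L)
  obtain ⟨σK, hσK⟩ := AlgEquiv.restrictNormalHom_surjective (F := K) (K₁ := L) E s
  set σ : E ≃ₐ[ℚ] E := σK.restrictScalars ℚ with hσ
  have hsσ : ∀ y : L, algebraMap L E (s y) = σ (algebraMap L E y) := by
    intro y
    rw [← hσK]
    exact AlgEquiv.restrictNormal_commutes σK L y
  -- the density theorem
  obtain ⟨ℓ, P, hℓ, hℓS, hPp, hℓP, -, hstab⟩ :=
    Fermat.Agent.Lib.FrobDensity.exists_prime_stabilizer_eq_zpowers E σ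
      (∏ v ∈ T₀, Ideal.absNorm v.asIdeal).primeFactors
  have hσP : σ • P = P := by
    have : σ ∈ MulAction.stabilizer (E ≃ₐ[ℚ] E) P := by
      rw [hstab]; exact Subgroup.mem_zpowers σ
    exact this
  -- the primes below
  set w : Ideal (𝓞 L) := P.under (𝓞 L) with hw
  set v₀ : Ideal (𝓞 K) := P.under (𝓞 K) with hv₀
  haveI hwp : w.IsPrime := Ideal.IsPrime.under (𝓞 L) P
  haveI hvp : v₀.IsPrime := Ideal.IsPrime.under (𝓞 K) P
  have hℓv : (ℓ : 𝓞 K) ∈ v₀ := by
    rw [hv₀, Ideal.under_def, Ideal.mem_comap, map_natCast]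
    exact hℓP
  have hv0 : v₀ ≠ ⊥ := by
    intro h
    rw [h, Ideal.mem_bot] at hℓv
    exact hℓ.ne_zero (by exact_mod_cast hℓv)
  have hwv : w.under (𝓞 K) = v₀ := by
    rw [hw, hv₀, Ideal.under_under]
  refine ⟨⟨v₀, hvp, hv0⟩, ?_, ?_⟩
  · intro hmem
    apply hℓS
    have hne : ∀ v ∈ T₀, Ideal.absNorm v.asIdeal ≠ 0 := fun v _ =>
      fun h => v.ne_bot (Ideal.absNorm_eq_zero_iff.1 h)
    rw [Nat.mem_primeFactors]
    refine ⟨hℓ, ?_, Finset.prod_ne_zero_iff.2 hne⟩
    refine Dvd.dvd.trans ?_ (Finset.dvd_prod_of_mem _ hmem)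
    show ℓ ∣ Ideal.absNorm v₀
    by_contra hnd
    have hcop : Nat.Coprime ℓ (Ideal.absNorm v₀) := (Nat.Prime.coprime_iff_not_dvd hℓ).2 hnd
    have h1 : ((Nat.gcd ℓ (Ideal.absNorm v₀) : ℤ) : 𝓞 K) ∈ v₀ := by
      rw [Nat.gcd_eq_gcd_ab]
      push_cast
      exact add_mem (Ideal.mul_mem_right _ _ hℓv) (Ideal.mul_mem_right _ _ (Ideal.absNorm_mem v₀))
    rw [hcop] at h1
    exact hvp.ne_top ((Ideal.eq_top_iff_one _).2 (by simpa using h1))
  · have hsw : s • w = w := Nonsplit.smul_under_eq s σ hsσ P hσP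
    have htop : MulAction.stabilizer (L ≃ₐ[K] L) w = ⊤ := by
      rcases Subgroup.eq_bot_or_eq_top_of_prime_card (MulAction.stabilizer (L ≃ₐ[K] L) w) with h | h
      · exfalso
        have : s ∈ MulAction.stabilizer (L ≃ₐ[K] L) w := hsw
        rw [h, Subgroup.mem_bot] at this
        exact hs1 this
      · exact h
    have hset : Ideal.primesOver v₀ (𝓞 L) = {w} := by
      ext Q
      constructor
      · rintro ⟨hQ, hQv⟩
        obtain ⟨g, hg⟩ := Algebra.IsInvariant.exists_smul_of_under_eq (𝓞 K) (𝓞 L) (L ≃ₐ[K] L) w Q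
          (by rw [hwv]; exact hQv.over)
        have hgw : g • w = w := by
          have : g ∈ MulAction.stabilizer (L ≃ₐ[K] L) w := by rw [htop]; exact Subgroup.mem_top g
          exact this
        rw [Set.mem_singleton_iff, hg, hgw]
      · rintro rfl
        exact ⟨hwp, ⟨hwv.symm⟩⟩
    show (Ideal.primesOver v₀ (𝓞 L)).ncard = 1
    rw [hset, Set.ncard_singleton]

end Fermat.Agent.S55.NIT.Abs
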