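/-
S55 / NIT / Abs, node AB-0: the two forms of `Cl_S = 1` agree.  Owner: helper4.
-/
import Fermat.Agent.S55.NIT.Abs.Defs

set_option autoImplicit false

namespace Fermat.Agent.S55.NIT.Abs

open IsDedekindDomain NumberField Fermat.Agent.S55.NIT

universe u

variable {K : Type u} [Field K] [NumberField K]

/-- AB-0. The two forms of `Cl_S = 1` agree. -/
theorem clTriv_iff_classGen (S : Finset (SI.Pl K)) :
    SI.ClTriv K S ↔ FI.ClassGen K (S : Set (FI.Pl K)) := by
  simp only [SI.ClTriv, FI.ClassGen, Finset.mem_coe]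

end Fermat.Agent.S55.NIT.Abs
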