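/-
S55 / NIT / Abs, node AB-3 (owner helper288): lower bound for the order of `∏_{v∈T} Kˣ/nrm b v`.
-/
import Fermat.Agent.S55.NIT.Abs.Defs

set_option autoImplicit false

namespace Fermat.Agent.S55.NIT.Abs

open IsDedekindDomain NumberField Fermat.Agent.S55.NIT

universe u

variable {p : ℕ} {K : Type u} [Field K] [NumberField K]

theorem index_pow_ne_zero (hp : p.Prime) (D : SI.LocData p K) (v : SI.Pl K) :
    (D.pow v).index ≠ 0 := by
  rw [D.index_pow v]
  refine mul_ne_zero (pow_ne_zero _ hp.ne_zero) ?_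
  rw [Ne, Ideal.absNorm_eq_zero_iff, HeightOneSpectrum.maxPowDividing]
  exact pow_ne_zero _ v.ne_bot

theorem index_nrm_ne_zero (hp : p.Prime) (D : SI.LocData p K) (b : Kˣ) (v : SI.Pl K) :
    (D.nrm b v).index ≠ 0 := fun h =>
  index_pow_ne_zero hp D v
    (Nat.eq_zero_of_zero_dvd (h ▸ Subgroup.index_dvd_of_le (D.pow_le_nrm b v)))

theorem isPGroup_quot_nrm (D : SI.LocData p K) (b : Kˣ) (v : SI.Pl K) :
    IsPGroup p (Kˣ ⧸ D.nrm b v) := by
  intro g
  obtain ⟨x, rfl⟩ := QuotientGroup.mk_surjective g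
  refine ⟨1, ?_⟩
  rw [pow_one, ← QuotientGroup.mk_pow, QuotientGroup.eq_one_iff]
  exact D.pow_le_nrm b v (D.pow_mem v x)

theorem le_index_nrm_of_ne_top (hp : p.Prime) (D : SI.LocData p K) (b : Kˣ) (v : SI.Pl K)
    (h : D.nrm b v ≠ ⊤) : p ≤ (D.nrm b v).index := by
  have : (D.nrm b v).FiniteIndex := ⟨index_nrm_ne_zero hp D b v⟩
  have : Fact p.Prime := ⟨hp⟩
  obtain ⟨n, hn⟩ := (isPGroup_quot_nrm D b v).exists_card_eq
  rw [← Subgroup.index_eq_card] at hn
  rcases Nat.eq_zero_or_pos n with rfl | hn0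
  · rw [pow_zero, Subgroup.index_eq_one] at hn
    exact absurd hn h
  · rw [hn]
    calc p = p ^ 1 := (pow_one p).symm
      _ ≤ p ^ n := Nat.pow_le_pow_right hp.pos hn0

variable {L : Type u} [Field L] [NumberField L] [Algebra K L]

/-- AB-3. Lower bound for the order of `∏_{v∈T} Kˣ/nrm b v`. -/
theorem card_tgt_nrm_ge (hp : p.Prime) (D : SI.LocData p K) (b : Kˣ) (hc : CompatWith p K D L b)
    (T : Finset (SI.Pl K)) :
    Finite (SI.Tgt K (D.nrm b) T) ∧
      p ^ (FI.nonsplit K L T).card ≤ Nat.card (SI.Tgt K (D.nrm b) T) := by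
  classical
  have hfin : ∀ v : SI.Pl K, Finite (Kˣ ⧸ D.nrm b v) := fun v =>
    have : (D.nrm b v).FiniteIndex := ⟨index_nrm_ne_zero hp D b v⟩
    inferInstance
  refine ⟨Pi.finite, ?_⟩
  have h1 : Nat.card (SI.Tgt K (D.nrm b) T) = ∏ v ∈ T, (D.nrm b v).index := by
    rw [Nat.card_pi, ← Finset.prod_coe_sort T (fun v => (D.nrm b v).index)]
    rfl
  have h2 : p ^ (FI.nonsplit K L T).card =
      ∏ v ∈ T, if (v.asIdeal.primesOver (𝓞 L)).ncard = 1 then p else 1 := by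
    rw [FI.nonsplit, ← Finset.prod_const, Finset.prod_filter]
  rw [h1, h2]
  refine Finset.prod_le_prod (fun _ _ => Nat.zero_le _) (fun v _ => ?_)
  split_ifs with hv
  · exact le_index_nrm_of_ne_top hp D b v (hc.nrm_ne_top v hv)
  · exact Nat.one_le_iff_ne_zero.mpr (index_nrm_ne_zero hp D b v)

end Fermat.Agent.S55.NIT.Abs
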