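/-
S55 / NIT / Abs, node AB-1 (owner helper116): the Kummer extension `K(y^(1/p))` as a number field
in the same universe.
-/
import Mathlib

set_option autoImplicit false

namespace Fermat.Agent.S55.NIT.Abs

open Polynomial

universe u

variable {p : ℕ} {K : Type u} [Field K] [NumberField K]

/-- AB-1. The Kummer extension as a number field in the same universe. -/
theorem exists_kummer_field (hp : p.Prime) {ζ : K} (hζ : IsPrimitiveRoot ζ p) (y : Kˣ)
    (hy : ∀ z : Kˣ, z ^ p ≠ y) :
    ∃ (L : Type u) (_ : Field L) (_ : NumberField L) (_ : Algebra K L) (_ : IsGalois K L)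
      (β : L) (σ : L ≃ₐ[K] L), Module.finrank K L = p ∧ β ^ p = algebraMap K L (y : K) ∧
        ∀ τ : L ≃ₐ[K] L, τ ∈ Subgroup.zpowers σ := by
  have hy' : ∀ b : K, b ^ p ≠ (y : K) := by
    intro b hb
    have hb0 : b ≠ 0 := by
      rintro rfl
      rw [zero_pow hp.ne_zero] at hb
      exact y.ne_zero hb.symm
    exact hy (Units.mk0 b hb0) (Units.ext (by simpa using hb))
  have H : Irreducible (X ^ p - C (y : K)) := X_pow_sub_C_irreducible_of_prime hp hy'
  have hne : (primitiveRoots p K).Nonempty := ⟨ζ, (mem_primitiveRoots hp.pos).2 hζ⟩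
  have : Fact (Irreducible (X ^ p - C (y : K))) := ⟨H⟩
  have : NeZero p := ⟨hp.ne_zero⟩
  have hsf : IsSplittingField K (AdjoinRoot (X ^ p - C (y : K))) (X ^ p - C (y : K)) :=
    isSplittingField_AdjoinRoot_X_pow_sub_C hne H
  have hgal : IsGalois K (AdjoinRoot (X ^ p - C (y : K))) :=
    isGalois_of_isSplittingField_X_pow_sub_C hne H _
  have hfin : FiniteDimensional K (AdjoinRoot (X ^ p - C (y : K))) :=
    Polynomial.IsSplittingField.finiteDimensional _ (X ^ p - C (y : K))
  have hchar : CharZero (AdjoinRoot (X ^ p - C (y : K))) :=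
    charZero_of_injective_algebraMap (algebraMap K _).injective
  have hnf : NumberField (AdjoinRoot (X ^ p - C (y : K))) :=
    { to_charZero := hchar
      to_finiteDimensional := FiniteDimensional.trans ℚ K _ }
  obtain ⟨σ, hσ⟩ := (isCyclic_of_isSplittingField_X_pow_sub_C hne H
    (AdjoinRoot (X ^ p - C (y : K)))).exists_generator
  refine ⟨AdjoinRoot (X ^ p - C (y : K)), inferInstance, hnf, inferInstance, hgal,
    AdjoinRoot.root _, σ, finrank_of_isSplittingField_X_pow_sub_C hne H _, ?_, hσ⟩
  exact root_X_pow_sub_C_pow p (y : K)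

end Fermat.Agent.S55.NIT.Abs
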