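/-
S55 / NIT / Abs, node AB-2 : `K(b^(1/p))/K` is unramified outside `p·b`.
-/
import Fermat.Agent.S55.NIT.Abs.Defs

set_option autoImplicit false

namespace Fermat.Agent.S55.NIT.Abs

open IsDedekindDomain NumberField Fermat.Agent.S55.NIT Polynomial

universe u

variable {p : ℕ} {K : Type u} [Field K] [NumberField K]

section L

variable {L : Type u} [Field L] [NumberField L] [Algebra K L]

namespace KummerUnram

/-- The element `p * β₀ ^ (p - 1)` lies in the different as soon as `β₀ ^ p ∈ 𝓞 K` and `β₀`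
generates `L`. -/
theorem mul_pow_mem_differentIdeal (b₀ : 𝓞 K) (β₀ : 𝓞 L)
    (hβ₀ : β₀ ^ p = algebraMap (𝓞 K) (𝓞 L) b₀)
    (hgen : Algebra.adjoin K {algebraMap (𝓞 L) L β₀} = ⊤) :
    (p : 𝓞 L) * β₀ ^ (p - 1) ∈ differentIdeal (𝓞 K) (𝓞 L) := by
  have hmem := aeval_derivative_mem_differentIdeal (𝓞 K) K L β₀ hgen
  have hint : IsIntegral (𝓞 K) β₀ := Algebra.IsIntegral.isIntegral β₀
  have hroot : aeval β₀ (X ^ p - C b₀ : (𝓞 K)[X]) = 0 := by
    simp [hβ₀]
  obtain ⟨g, hg⟩ := minpoly.isIntegrallyClosed_dvd hint hroot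
  have hder := congrArg (fun q => aeval β₀ (derivative q)) hg
  simp only [derivative_sub, derivative_X_pow, derivative_C, sub_zero, derivative_mul, map_add,
    map_mul, minpoly.aeval, zero_mul, add_zero, map_pow, aeval_X, map_natCast] at hder
  rw [hder]
  exact Ideal.mul_mem_right _ _ hmem

/-- A prime of `L` whose square divides the prime below divides the different. -/
theorem mem_of_sq_dvd (w : FI.Pl L) (x : 𝓞 L) (hx : x ∈ differentIdeal (𝓞 K) (𝓞 L))
    (h : (w.under (𝓞 K)).asIdeal.map (algebraMap (𝓞 K) (𝓞 L)) ≤ w.asIdeal ^ 2) :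
    x ∈ w.asIdeal := by
  have : (w.under (𝓞 K)).asIdeal.IsMaximal := (w.under (𝓞 K)).isMaximal
  have h1 := pow_sub_one_dvd_differentIdeal (𝓞 K) w.asIdeal 2 (w.under (𝓞 K)).ne_bot
    (Ideal.dvd_iff_le.2 h)
  rw [show 2 - 1 = 1 from rfl, pow_one] at h1
  exact Ideal.dvd_iff_le.1 h1 hx

/-- An element of `L` outside `K` generates `L` when the degree is prime. -/
theorem adjoin_eq_top (hp : p.Prime) (hdeg : Module.finrank K L = p) (x : L)
    (hx : ∀ z : K, algebraMap K L z ≠ x) : Algebra.adjoin K {x} = ⊤ := by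
  have : FiniteDimensional K L := Module.finite_of_finrank_pos (by rw [hdeg]; exact hp.pos)
  have hs : IsSimpleOrder (IntermediateField K L) :=
    IntermediateField.isSimpleOrder_of_finrank_prime K L (by rw [hdeg]; exact hp)
  have h1 : IntermediateField.adjoin K {x} = ⊤ := by
    rcases hs.eq_bot_or_eq_top (IntermediateField.adjoin K {x}) with h | h
    · exfalso
      rw [IntermediateField.adjoin_simple_eq_bot_iff, IntermediateField.mem_bot] at h
      obtain ⟨z, hz⟩ := h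
      exact hx z hz
    · exact h
  have h2 := IntermediateField.adjoin_simple_toSubalgebra_of_isAlgebraic
    (Algebra.IsAlgebraic.isAlgebraic (R := K) x)
  rw [← h2, h1, IntermediateField.top_toSubalgebra]

end KummerUnram

open KummerUnram in
/-- AB-2 (file KummerUnram.lean). `K(b^(1/p))/K` is unramified outside `p·b`. -/
theorem unramOutside_of_kummer (hp : p.Prime) (hdeg : Module.finrank K L = p)
    (b : Kˣ) (β : L) (hβ : β ^ p = algebraMap K L (b : K))
    (hb : ∀ z : Kˣ, z ^ p ≠ b) (T : Finset (SI.Pl K))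
    (hpT : ∀ v : SI.Pl K, SI.Over p K v → v ∈ T) (hbT : b ∈ SI.KS K T) :
    FI.UnramOutside K L (T : Set (FI.Pl K)) := by
  intro w hw
  have hvT : w.under (𝓞 K) ∉ T := by simpa using hw
  have hpv : (p : 𝓞 K) ∉ (w.under (𝓞 K)).asIdeal := fun h => hvT (hpT _ h)
  have hbv : (w.under (𝓞 K)).valuation K (b : K) = 1 :=
    Set.unit_valuation_eq_one _ K (⟨b, hbT⟩ : (T : Set (SI.Pl K)).unit K) hw
  obtain ⟨n, c, hc⟩ := (w.under (𝓞 K)).exists_primeCompl_mul_eq_of_integer (b : K) hbv.le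
  have hcv : (c : 𝓞 K) ∉ (w.under (𝓞 K)).asIdeal := c.2
  have hc0 : (c : 𝓞 K) ≠ 0 := fun h => hcv (by rw [h]; exact zero_mem _)
  have hc0K : algebraMap (𝓞 K) K c ≠ 0 := by
    simpa using hc0
  have hp1 : p - 1 + 1 = p := Nat.sub_add_cancel hp.one_le
  -- the integral model
  set b₀ : 𝓞 K := (c : 𝓞 K) ^ (p - 1) * n with hb₀
  have hb₀K : algebraMap (𝓞 K) K b₀ = algebraMap (𝓞 K) K c ^ p * (b : K) := by
    rw [hb₀, map_mul, map_pow, ← hc, ← hp1, pow_succ, hp1]
    ring
  set βL : L := algebraMap K L (algebraMap (𝓞 K) K c) * β with hβL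
  have hβLp : βL ^ p = algebraMap (𝓞 K) L b₀ := by
    rw [hβL, mul_pow, hβ, ← map_pow, ← map_mul, ← hb₀K, ← IsScalarTower.algebraMap_apply]
  have hint : IsIntegral (𝓞 K) βL := by
    refine ⟨X ^ p - C b₀, monic_X_pow_sub_C _ hp.ne_zero, ?_⟩
    simp [hβLp]
  have hintZ : IsIntegral ℤ βL := isIntegral_trans _ hint
  set β₀ : 𝓞 L := ⟨βL, hintZ⟩ with hβ₀def
  have hβ₀L : algebraMap (𝓞 L) L β₀ = βL := rfl
  have hβ₀ : β₀ ^ p = algebraMap (𝓞 K) (𝓞 L) b₀ := by
    apply FaithfulSMul.algebraMap_injective (𝓞 L) L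
    rw [map_pow, hβ₀L, hβLp, ← IsScalarTower.algebraMap_apply]
  have hgen : Algebra.adjoin K {algebraMap (𝓞 L) L β₀} = ⊤ := by
    apply adjoin_eq_top hp hdeg
    intro z hz
    rw [hβ₀L, hβL] at hz
    -- then `(z / c) ^ p = b`
    have hz' : algebraMap K L (z / algebraMap (𝓞 K) K c) = β := by
      rw [map_div₀, hz, mul_div_cancel_left₀]
      simpa using hc0K
    have hzp : (z / algebraMap (𝓞 K) K c) ^ p = (b : K) := by
      apply FaithfulSMul.algebraMap_injective K L
      rw [map_pow, hz', hβ]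
    have hz0 : z / algebraMap (𝓞 K) K c ≠ 0 := by
      intro h0
      rw [h0, zero_pow hp.ne_zero] at hzp
      exact b.ne_zero hzp.symm
    exact hb (Units.mk0 _ hz0) (Units.ext (by simpa using hzp))
  have hdiff := mul_pow_mem_differentIdeal b₀ β₀ hβ₀ hgen
  apply Ideal.ramificationIdx'_spec
  · rw [pow_one]
    exact Ideal.map_comap_le
  · intro hle
    have hmem := mem_of_sq_dvd w _ hdiff hle
    rcases w.isPrime.mem_or_mem hmem with h | h
    · apply hpv
      change algebraMap (𝓞 K) (𝓞 L) (p : 𝓞 K) ∈ w.asIdeal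
      simpa using h
    · have h' : β₀ ∈ w.asIdeal := w.isPrime.mem_of_pow_mem _ h
      have h'' : b₀ ∈ (w.under (𝓞 K)).asIdeal := by
        change algebraMap (𝓞 K) (𝓞 L) b₀ ∈ w.asIdeal
        rw [← hβ₀]
        exact Ideal.pow_mem_of_mem _ h' _ hp.pos
      -- but `v b₀ = 1`
      have hval : (w.under (𝓞 K)).valuation K (algebraMap (𝓞 K) K b₀) = 1 := by
        rw [hb₀K, map_mul, map_pow, hbv, mul_one,
          (HeightOneSpectrum.valuation_eq_one_iff_notMem (K := K) _).2 hcv, one_pow]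
      exact (HeightOneSpectrum.valuation_eq_one_iff_notMem (K := K) _).1 hval h''

end L

end Fermat.Agent.S55.NIT.Abs
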