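/-
S55 / NIT / Abs, node AB-4a, core (owner helper85): the counting argument.
`|K_T / N L_T| * p = p ^ ns` and `p ^ ns ≤ |∏_{v∈T} Kˣ/nrm b v|` imply that the diagonal image of
the `T`-units is not everything.
-/
import Fermat.Agent.S55.NIT.Abs.Defs

set_option autoImplicit false

namespace Fermat.Agent.S55.NIT.Abs

open IsDedekindDomain NumberField Fermat.Agent.S55.NIT

universe u

variable {p : ℕ} {K : Type u} [Field K] [NumberField K]
variable {L : Type u} [Field L] [NumberField L] [Algebra K L]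

/-- the counting core of AB-4a -/
theorem img_nrm_ne_top_core (hp : p.Prime) (D : SI.LocData p K) (b : Kˣ)
    (hc : CompatWith p K D L b) (T : Finset (SI.Pl K)) (ns : ℕ)
    (hFI : Nat.card (FI.sU K (T : Set (FI.Pl K)) ⧸
      (FI.normImage K L (T : Set (FI.Pl K))).subgroupOf (FI.sU K (T : Set (FI.Pl K)))) * p
        = p ^ ns)
    (hcard : p ^ ns ≤ Nat.card (SI.Tgt K (D.nrm b) T)) :
    SI.img K (D.nrm b) T (SI.KS K T) ≠ ⊤ := by
  intro htop
  set G : Subgroup Kˣ := FI.sU K (T : Set (FI.Pl K)) with hG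
  set N : Subgroup G := (FI.normImage K L (T : Set (FI.Pl K))).subgroupOf G with hN
  have hpos : 0 < p ^ ns := pow_pos hp.pos _
  have hc0 : Nat.card (G ⧸ N) ≠ 0 := by
    intro h0
    rw [h0, zero_mul] at hFI
    exact hpos.ne hFI
  have hfin : Finite (G ⧸ N) := Nat.finite_of_card_ne_zero hc0
  let ν : G →* SI.Tgt K (D.nrm b) T := (SI.diag K (D.nrm b) T).comp G.subtype
  have hker : N ≤ ν.ker := by
    intro x hx
    rw [MonoidHom.mem_ker]
    rw [hN, Subgroup.mem_subgroupOf] at hx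
    obtain ⟨z, -, hz⟩ := Subgroup.mem_map.mp hx
    funext v
    change QuotientGroup.mk' (D.nrm b v) (x : Kˣ) = 1
    rw [← hz, QuotientGroup.mk'_apply, QuotientGroup.eq_one_iff]
    exact hc.norm_mem v z
  have hsurj : Function.Surjective (QuotientGroup.lift (M := SI.Tgt K (D.nrm b) T) N ν hker) := by
    intro t
    have ht : t ∈ SI.img K (D.nrm b) T (SI.KS K T) := htop ▸ Subgroup.mem_top t
    obtain ⟨x, hx, hxt⟩ := Subgroup.mem_map.mp ht
    exact ⟨QuotientGroup.mk (⟨x, hx⟩ : G), hxt⟩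
  have hle : Nat.card (SI.Tgt K (D.nrm b) T) ≤ Nat.card (G ⧸ N) :=
    Nat.card_le_card_of_surjective _ hsurj
  have h2 : 2 ≤ p := hp.two_le
  have h3 : Nat.card (G ⧸ N) * p ≤ Nat.card (G ⧸ N) := by
    rw [hFI]
    exact hcard.trans hle
  have h4 : 0 < Nat.card (G ⧸ N) := Nat.pos_of_ne_zero hc0
  nlinarith

end Fermat.Agent.S55.NIT.Abs
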