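/-
S55 / NIT / Abs, node AB-4a.
-/
import Fermat.Agent.S55.NIT.Abs.Basic
import Fermat.Agent.S55.NIT.Abs.CardNrm
import Fermat.Agent.S55.NIT.Abs.KummerUnram
import Fermat.Agent.S55.NIT.Abs.NotOntoCore
import Fermat.Agent.S55.NIT.FI.Main

set_option autoImplicit false

namespace Fermat.Agent.S55.NIT.Abs

open IsDedekindDomain NumberField Fermat.Agent.S55.NIT Fermat.Agent.S55.NIT.Abs

universe u

variable {p : ℕ} {K : Type u} [Field K] [NumberField K]

section L

variable {L : Type u} [Field L] [NumberField L] [Algebra K L]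

/-- AB-4a. The first inequality in the form used by SI, for one `L`. -/
theorem img_nrm_ne_top [IsGalois K L] (hp : p.Prime) (hp2 : p ≠ 2) (hT : FI.TateLemma.{u} p)
    {ζ : K} (hζ : IsPrimitiveRoot ζ p) (hdeg : Module.finrank K L = p)
    (σ : L ≃ₐ[K] L) (hσ : ∀ τ : L ≃ₐ[K] L, τ ∈ Subgroup.zpowers σ)
    (D : SI.LocData p K) (b : Kˣ) (β : L) (hβ : β ^ p = algebraMap K L (b : K))
    (hb : ∀ z : Kˣ, z ^ p ≠ b)
    (hc : CompatWith p K D L b) (T : Finset (SI.Pl K))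
    (hpT : ∀ v : SI.Pl K, SI.Over p K v → v ∈ T) (hbT : b ∈ SI.KS K T) (hCl : SI.ClTriv K T) :
    SI.img K (D.nrm b) T (SI.KS K T) ≠ ⊤ := by
  have : Fact p.Prime := ⟨hp⟩
  exact img_nrm_ne_top_core hp D b hc T (FI.nonsplit K L T).card
    (FI.card_quot_normImage K L p hp2 hT hdeg hζ σ hσ T
      (unramOutside_of_kummer hp hdeg b β hβ hb T hpT hbT) ((clTriv_iff_classGen T).mp hCl))
    (card_tgt_nrm_ge hp D b hc T).2

end L

end Fermat.Agent.S55.NIT.Abs
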