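/-
S55 / NIT / Abs, node AB-4: the first inequality in the form used by SI, from the compatibility
of the abstract local data with all Kummer extensions.  Owner: helper159.
-/
import Fermat.Agent.S55.NIT.Abs.KummerField
import Fermat.Agent.S55.NIT.Abs.NotOnto

set_option autoImplicit false

namespace Fermat.Agent.S55.NIT.Abs

open IsDedekindDomain NumberField Fermat.Agent.S55.NIT Fermat.Agent.S55.NIT.Abs

universe u

variable {p : ℕ} {K : Type u} [Field K] [NumberField K]

/-- AB-4 (file FirstIneq.lean). -/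
theorem firstIneq_of_compat (hp : p.Prime) (hp2 : p ≠ 2) (hT : FI.TateLemma.{u} p)
    {ζ : K} (hζ : IsPrimitiveRoot ζ p) (D : SI.LocData p K) (hD : Compat p K D) :
    SI.FirstIneq p K D := by
  intro y hy T hpT hyT hCl
  obtain ⟨L, _, _, _, _, β, σ, hdeg, hβ, hσ⟩ := exists_kummer_field hp hζ y hy
  exact img_nrm_ne_top hp hp2 hT hζ hdeg σ hσ D y β hβ hy (hD L hdeg y β hβ hy) T hpT hyT hCl

end Fermat.Agent.S55.NIT.Abs
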