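/-
S55 / NIT / Abs, node AB-6 (core, with the nodes AB-2, AB-5, AB-5b as hypotheses): if `Cl_S(L) = 1`, elements that are local norms outside `S` are
`S`-units times global norms.
-/
import Fermat.Agent.S55.NIT.Abs.Defs
import Fermat.Agent.S55.NIT.FI.Hilbert90S
import Fermat.Agent.S55.NIT.FI.BaseChange

set_option autoImplicit false

namespace Fermat.Agent.S55.NIT.Abs

open IsDedekindDomain NumberField Fermat.Agent.S55.NIT

universe u

variable {p : ℕ} {K : Type u} [Field K] [NumberField K]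

section L

variable {L : Type u} [Field L] [NumberField L] [Algebra K L]

omit [NumberField L] in
open Classical in
/-- Abstract core: correct `g` prime by prime by norms. -/
theorem gamS_core (S : Set (FI.Pl K)) (g : Kˣ) (d : FI.Pl K → Lˣ) (n : FI.Pl K → ℤ)
    (h1 : ∀ v : FI.Pl K, v ∉ S →
      v.valuation K (g : K) = v.valuation K (FI.normU K L (d v) : K) ^ n v)
    (h2 : ∀ v : FI.Pl K, v ∉ S → ∀ v' : FI.Pl K, v' ∉ S → v' ≠ v →
      v'.valuation K (FI.normU K L (d v) : K) = 1) :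
    ∃ (k : Kˣ) (z : Lˣ), k ∈ FI.sU K S ∧ g = k * FI.normU K L z := by
  set T : Finset (FI.Pl K) :=
    (FI.h90_finite_valuation_ne_one K (g : K) g.ne_zero).toFinset.filter (fun v => v ∉ S) with hT
  have hmemT : ∀ v : FI.Pl K, v ∈ T ↔ v.valuation K (g : K) ≠ 1 ∧ v ∉ S := by
    intro v
    simp [hT]
  refine ⟨g * (FI.normU K L (∏ v ∈ T, d v ^ n v))⁻¹, ∏ v ∈ T, d v ^ n v, ?_, by simp⟩
  rw [FI.BaseChange.mem_sU_iff]
  intro v hv
  have hprod : v.valuation K ((FI.normU K L (∏ v ∈ T, d v ^ n v) : Kˣ) : K) =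
      ∏ v' ∈ T, v.valuation K (FI.normU K L (d v') : K) ^ n v' := by
    rw [map_prod, Units.coe_prod, map_prod]
    refine Finset.prod_congr rfl fun v' _ => ?_
    rw [map_zpow, Units.val_zpow_eq_zpow_val, map_zpow₀]
  have hkey : v.valuation K ((FI.normU K L (∏ v ∈ T, d v ^ n v) : Kˣ) : K) =
      v.valuation K (g : K) := by
    rw [hprod]
    by_cases hvT : v ∈ T
    · rw [Finset.prod_eq_single_of_mem v hvT, ← h1 v hv]
      intro v' hv' hne
      rw [h2 v' ((hmemT v').1 hv').2 v hv (Ne.symm hne), one_zpow]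
    · rw [Finset.prod_eq_one]
      · by_contra hne
        exact hvT ((hmemT v).2 ⟨Ne.symm hne, hv⟩)
      · intro v' hv'
        have hne : v ≠ v' := fun h => hvT (h ▸ hv')
        rw [h2 v' ((hmemT v').1 hv').2 v hv hne, one_zpow]
  rw [Units.val_mul, map_mul, Units.val_inv_eq_inv_val, map_inv₀, hkey]
  exact mul_inv_cancel₀ (by simp)

/-- AB-6 with the nodes AB-2, AB-5, AB-5b as explicit hypotheses. -/
theorem exists_mul_norm_of_mem_GamS_aux
    (D : SI.LocData p K) (b : Kˣ) (S : Finset (SI.Pl K))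
    (hpS : ∀ v : SI.Pl K, SI.Over p K v → v ∈ S) (hbS : b ∈ SI.KS K S)
    (hClL : FI.ClassGen L (FI.above K L (S : Set (FI.Pl K))))
    (h5 : ∀ (w : FI.Pl L), w ∉ FI.above K L (S : Set (FI.Pl K)) → ∀ c : Lˣ,
      w.valuation L (c : L) = WithZero.exp (-1 : ℤ) →
      (∀ w' : FI.Pl L, w' ∉ FI.above K L (S : Set (FI.Pl K)) → w' ≠ w →
        w'.valuation L (c : L) = 1) →
      ((w.under (𝓞 K)).valuation K (FI.normU K L c : K) =
        if ((w.under (𝓞 K)).asIdeal.primesOver (𝓞 L)).ncard = 1 then WithZero.exp (-(p : ℤ))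
        else WithZero.exp (-1 : ℤ)) ∧
      ∀ v' : FI.Pl K, v' ∉ (S : Set (FI.Pl K)) → v' ≠ w.under (𝓞 K) →
        v'.valuation K (FI.normU K L c : K) = 1)
    (h5b : ∀ v : SI.Pl K, ¬ SI.Over p K v → b ∈ SI.Uv K v →
      (v.asIdeal.primesOver (𝓞 L)).ncard = 1 → ∀ g : Kˣ, g ∈ D.nrm b v →
      ∃ y : Kˣ, v.valuation K (g : K) = v.valuation K (y : K) ^ p)
    (g : Kˣ) (hg : g ∈ SI.GamS p K D b S) :
    ∃ (k : Kˣ) (z : Lˣ), k ∈ SI.KS K S ∧ g = k * FI.normU K L z := by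
  have hex : ∀ v : FI.Pl K, ∃ (d : Lˣ) (n : ℤ), v ∉ (S : Set (FI.Pl K)) →
      v.valuation K (g : K) = v.valuation K (FI.normU K L d : K) ^ n ∧
      ∀ v' : FI.Pl K, v' ∉ (S : Set (FI.Pl K)) → v' ≠ v →
        v'.valuation K (FI.normU K L d : K) = 1 := by
    intro v
    by_cases hv : v ∈ (S : Set (FI.Pl K))
    · exact ⟨1, 0, fun h => absurd hv h⟩
    obtain ⟨w, rfl⟩ := FI.BaseChange.exists_under_eq K L v
    obtain ⟨c, hc1, hc2⟩ := hClL w hv
    obtain ⟨hN1, hN2⟩ := h5 w hv c hc1 hc2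
    by_cases hns : ((w.under (𝓞 K)).asIdeal.primesOver (𝓞 L)).ncard = 1
    · rw [if_pos hns] at hN1
      have hgv : g ∈ D.nrm b (w.under (𝓞 K)) := by
        have := (Subgroup.mem_iInf.1 hg) ⟨w.under (𝓞 K), fun h => hv (Finset.mem_coe.2 h)⟩
        exact this
      obtain ⟨y, hy⟩ := h5b (w.under (𝓞 K)) (fun h => hv (Finset.mem_coe.2 (hpS _ h)))
        (hbS _ hv) hns g hgv
      have hy0 : (w.under (𝓞 K)).valuation K (y : K) ≠ 0 := by simp
      refine ⟨c, - WithZero.log ((w.under (𝓞 K)).valuation K (y : K)), fun _ => ⟨?_, hN2⟩⟩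
      rw [hN1, hy, ← WithZero.exp_zsmul]
      conv_lhs => rw [← WithZero.exp_log hy0]
      rw [← WithZero.exp_nsmul]
      congr 1
      simp [mul_comm]
    · rw [if_neg hns] at hN1
      have hg0 : (w.under (𝓞 K)).valuation K (g : K) ≠ 0 := by simp
      refine ⟨c, - WithZero.log ((w.under (𝓞 K)).valuation K (g : K)), fun _ => ⟨?_, hN2⟩⟩
      rw [hN1, ← WithZero.exp_zsmul]
      conv_lhs => rw [← WithZero.exp_log hg0]
      congr 1
      simp
  choose d n hdn using hex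
  exact gamS_core (S : Set (FI.Pl K)) g d n (fun v hv => (hdn v hv).1) (fun v hv => (hdn v hv).2)

end L

end Fermat.Agent.S55.NIT.Abs
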