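/-
S55 / NIT / Abs, node AB-5b: at an inert place outside `S` local norms have valuation divisible
by `p`.
-/
import Fermat.Agent.S55.NIT.Abs.Defs

set_option autoImplicit false

namespace Fermat.Agent.S55.NIT.Abs

open IsDedekindDomain NumberField Fermat.Agent.S55.NIT Fermat.Agent.S55.NIT.Abs

universe u

variable {p : ℕ} {K : Type u} [Field K] [NumberField K]

namespace InertVal

/-- every integer is the exponent of the valuation of a unit of `K`. -/
theorem exists_val_eq_exp (v : SI.Pl K) (k : ℤ) :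
    ∃ y : Kˣ, v.valuation K (y : K) = WithZero.exp k := by
  obtain ⟨π, hπ⟩ := v.valuation_exists_uniformizer K
  have hπ0 : π ≠ 0 := by
    rintro rfl
    rw [map_zero] at hπ
    exact WithZero.exp_ne_zero hπ.symm
  refine ⟨(Units.mk0 π hπ0) ^ (-k), ?_⟩
  rw [Units.val_zpow_eq_zpow_val, map_zpow₀, Units.val_mk0, hπ, ← WithZero.exp_zsmul]
  congr 1
  simp

theorem val_eq_exp_log (v : SI.Pl K) (x : Kˣ) :
    v.valuation K (x : K) = WithZero.exp (WithZero.log (v.valuation K (x : K))) := by
  rw [WithZero.exp_log]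
  exact (Valuation.ne_zero_iff _).mpr x.ne_zero

end InertVal

section L

variable {L : Type u} [Field L] [NumberField L] [Algebra K L]

open InertVal in
/-- AB-5b (file InertVal.lean). At an inert place outside `S` local norms have valuation
divisible by `p`. -/
theorem val_of_mem_nrm_of_nonsplit (hp : p.Prime) (D : SI.LocData p K) (b : Kˣ)
    (hc : CompatWith p K D L b) (v : SI.Pl K) (hv : ¬ SI.Over p K v) (hb : b ∈ SI.Uv K v)
    (hns : (v.asIdeal.primesOver (𝓞 L)).ncard = 1) (g : Kˣ) (hg : g ∈ D.nrm b v) :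
    ∃ y : Kˣ, v.valuation K (g : K) = v.valuation K (y : K) ^ p := by
  set n : ℤ := WithZero.log (v.valuation K (g : K)) with hn
  have hgn : v.valuation K (g : K) = WithZero.exp n := val_eq_exp_log v g
  by_cases hdvd : (p : ℤ) ∣ n
  · obtain ⟨k, hk⟩ := hdvd
    obtain ⟨y, hy⟩ := exists_val_eq_exp v k
    refine ⟨y, ?_⟩
    rw [hgn, hy, ← WithZero.exp_nsmul, hk]
    congr 1
  · exfalso
    apply hc.nrm_ne_top v hns
    have hcop : IsCoprime n (p : ℤ) :=
      ((Nat.prime_iff_prime_int.mp hp).coprime_iff_not_dvd.mpr hdvd).symm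
    obtain ⟨i, j, hij⟩ := hcop
    rw [eq_top_iff]
    intro x _
    set m : ℤ := WithZero.log (v.valuation K (x : K)) with hm
    have hxm : v.valuation K (x : K) = WithZero.exp m := val_eq_exp_log v x
    obtain ⟨y, hy⟩ := exists_val_eq_exp v (m * j)
    have hu : x * (g ^ (i * m))⁻¹ * (y ^ p)⁻¹ ∈ SI.Uv K v := by
      rw [SI.mem_Uv]
      simp only [Units.val_mul, Units.val_inv_eq_inv_val, Units.val_zpow_eq_zpow_val,
        Units.val_pow_eq_pow_val, map_mul, map_inv₀, map_zpow₀, map_pow]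
      rw [hxm, hgn, hy, ← WithZero.exp_zsmul, ← WithZero.exp_nsmul, ← WithZero.exp_neg,
        ← WithZero.exp_neg, ← WithZero.exp_add, ← WithZero.exp_add, WithZero.exp_eq_one]
      simp only [smul_eq_mul, nsmul_eq_mul]
      linear_combination (-m) * hij
    have h1 := D.unit_le_nrm b v hv hb hu
    have h2 : g ^ (i * m) ∈ D.nrm b v := Subgroup.zpow_mem _ hg _
    have h3 : y ^ p ∈ D.nrm b v := D.pow_le_nrm b v (D.pow_mem v y)
    have := Subgroup.mul_mem _ (Subgroup.mul_mem _ h1 h2) h3
    have e : x * (g ^ (i * m))⁻¹ * (y ^ p)⁻¹ * g ^ (i * m) * y ^ p = x := by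
      rw [mul_assoc x, mul_comm (g ^ (i * m))⁻¹, ← mul_assoc x, inv_mul_cancel_right,
        inv_mul_cancel_right]
    rwa [e] at this

end L

end Fermat.Agent.S55.NIT.Abs
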