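/-
S55 / NIT / Abs, node AB-5: valuation of the norm of a generator of a prime `w` of `L`
(outside `S`, where `L/K` is unramified).
-/
import Fermat.Agent.S55.NIT.Abs.Defs
import Fermat.Agent.S55.NIT.FI.GaloisVal
import Fermat.Agent.S55.NIT.FI.BaseChange
import Fermat.Agent.S55.NIT.FI.CountAbove

set_option autoImplicit false

namespace Fermat.Agent.S55.NIT.Abs

open IsDedekindDomain NumberField Fermat.Agent.S55.NIT Fermat.Agent.S55.NIT.Abs

universe u

variable {p : ℕ} {K : Type u} [Field K] [NumberField K]

section L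

variable {L : Type u} [Field L] [NumberField L] [Algebra K L]

/-- A place is determined by its valuation. -/
theorem ValNorm.pl_ext (w w' : FI.Pl L) (h : ∀ y : L, w'.valuation L y = w.valuation L y) :
    w' = w := by
  ext x
  rw [← HeightOneSpectrum.valuation_lt_one_iff_mem (K := L),
    ← HeightOneSpectrum.valuation_lt_one_iff_mem (K := L), h]

/-- the valuation of an element of `K` at an unramified prime of `L` -/
theorem ValNorm.valuation_algebraMap (S : Set (FI.Pl K)) (hur : FI.UnramOutside K L S)
    (w : FI.Pl L) (hw : w.under (𝓞 K) ∉ S) (x : K) :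
    w.valuation L (algebraMap K L x) = (w.under (𝓞 K)).valuation K x := by
  have : w.asIdeal.LiesOver (w.under (𝓞 K)).asIdeal := by
    rw [HeightOneSpectrum.under_asIdeal]
    infer_instance
  rw [← HeightOneSpectrum.valuation_liesOver L (w.under (𝓞 K)) w x, hur w hw, pow_one]

variable [IsGalois K L]

theorem ValNorm.valuation_norm (S : Set (FI.Pl K)) (hur : FI.UnramOutside K L S)
    (w1 : FI.Pl L) (hw1 : w1.under (𝓞 K) ∉ S) (c : Lˣ) :
    (w1.under (𝓞 K)).valuation K (FI.normU K L c : K) =
      ∏ σ : L ≃ₐ[K] L, (FI.GaloisVal.comapPl K L σ w1).valuation L (c : L) := by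
  rw [← ValNorm.valuation_algebraMap S hur w1 hw1]
  have h : algebraMap K L (FI.normU K L c : K) = ∏ σ : L ≃ₐ[K] L, σ (c : L) :=
    Algebra.norm_eq_prod_automorphisms K (c : L)
  rw [h, map_prod]
  exact Finset.prod_congr rfl fun σ _ => (FI.GaloisVal.comapPl_valuation K L σ w1 _).symm

/-- AB-5 (file ValNorm.lean). Valuation of the norm of a generator of a prime `w` of `L`
(outside `S`, where `L/K` is unramified). -/
theorem val_norm_generator (hp : p.Prime) (hdeg : Module.finrank K L = p) (S : Set (FI.Pl K))
    (hur : FI.UnramOutside K L S) (w : FI.Pl L) (hw : w ∉ FI.above K L S) (c : Lˣ)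
    (hc : w.valuation L (c : L) = WithZero.exp (-1 : ℤ))
    (hc' : ∀ w' : FI.Pl L, w' ∉ FI.above K L S → w' ≠ w → w'.valuation L (c : L) = 1) :
    ((w.under (𝓞 K)).valuation K (FI.normU K L c : K) =
      if ((w.under (𝓞 K)).asIdeal.primesOver (𝓞 L)).ncard = 1 then WithZero.exp (-(p : ℤ))
      else WithZero.exp (-1 : ℤ)) ∧
    ∀ v' : FI.Pl K, v' ∉ S → v' ≠ w.under (𝓞 K) → v'.valuation K (FI.normU K L c : K) = 1 := by
  classical
  have : Fact p.Prime := ⟨hp⟩
  have hwS : w.under (𝓞 K) ∉ S := hw
  have hcard : Fintype.card (L ≃ₐ[K] L) = p := by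
    rw [← Nat.card_eq_fintype_card, IsGalois.card_aut_eq_finrank, hdeg]
  constructor
  · rw [ValNorm.valuation_norm S hur w hwS c]
    have hval : ∀ σ : L ≃ₐ[K] L, (FI.GaloisVal.comapPl K L σ w).valuation L (c : L) =
        if FI.GaloisVal.comapPl K L σ w = w then WithZero.exp (-1 : ℤ) else 1 := by
      intro σ
      split_ifs with h
      · rw [h, hc]
      · refine hc' _ ?_ h
        change (FI.GaloisVal.comapPl K L σ w).under (𝓞 K) ∉ S
        rw [FI.GaloisVal.comapPl_under]
        exact hwS
    simp_rw [hval]
    rw [Finset.prod_ite, Finset.prod_const_one, mul_one, Finset.prod_const]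
    have hfib : ∀ σ : L ≃ₐ[K] L,
        FI.GaloisVal.comapPl K L σ w ∈ FI.aboveFibre K L (w.under (𝓞 K)) :=
      fun σ => FI.GaloisVal.comapPl_under K L σ w
    have hwfib : w ∈ FI.aboveFibre K L (w.under (𝓞 K)) := rfl
    rw [← FI.ncard_aboveFibre]
    split_ifs with h1
    · -- only one prime above
      have hall : ∀ σ : L ≃ₐ[K] L, FI.GaloisVal.comapPl K L σ w = w := by
        intro σ
        obtain ⟨a, ha⟩ := Set.ncard_eq_one.mp h1
        have h2 := hfib σ
        have h3 := hwfib
        rw [ha, Set.mem_singleton_iff] at h2 h3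
        rw [h2, h3]
      rw [Finset.filter_true_of_mem (fun σ _ => hall σ), Finset.card_univ, hcard,
        ← WithZero.exp_nsmul]
      congr 1
      simp
    · -- `p` primes above
      have hp' : (FI.aboveFibre K L (w.under (𝓞 K))).ncard = p := by
        rcases FI.ncard_primesOver_eq_one_or K L p hdeg (w.under (𝓞 K)) with h | h
        · exact absurd ((FI.ncard_aboveFibre K L _).trans h) h1
        · exact (FI.ncard_aboveFibre K L _).trans h
      -- the orbit map is surjective, hence injective
      let f : (L ≃ₐ[K] L) → FI.aboveFibre K L (w.under (𝓞 K)) :=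
        fun σ => ⟨FI.GaloisVal.comapPl K L σ w, hfib σ⟩
      have hsurj : Function.Surjective f := by
        rintro ⟨w', hw'⟩
        obtain ⟨σ, hσ⟩ := FI.exists_galois_of_under_eq K L w w' (Eq.symm hw')
        refine ⟨σ, Subtype.ext ?_⟩
        refine (ValNorm.pl_ext _ _ fun y => ?_).symm
        rw [hσ, FI.GaloisVal.comapPl_valuation]
      have : Finite (FI.aboveFibre K L (w.under (𝓞 K))) := (FI.aboveFibre_finite K L _).to_subtype
      have hinj : Function.Injective f := by
        have hbij := (Nat.bijective_iff_surjective_and_card f).mpr ⟨hsurj, ?_⟩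
        · exact hbij.1
        · rw [Nat.card_eq_fintype_card, hcard, Nat.card_coe_set_eq, hp']
      have hone : FI.GaloisVal.comapPl K L (1 : L ≃ₐ[K] L) w = w := by
        refine ValNorm.pl_ext _ _ fun y => ?_
        rw [FI.GaloisVal.comapPl_valuation]
        rfl
      have hfilter : (Finset.univ.filter fun σ : L ≃ₐ[K] L =>
          FI.GaloisVal.comapPl K L σ w = w) = {1} := by
        ext σ
        simp only [Finset.mem_filter, Finset.mem_univ, true_and, Finset.mem_singleton]
        constructor
        · intro h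
          apply hinj
          exact Subtype.ext (h.trans hone.symm)
        · rintro rfl
          exact hone
      rw [hfilter, Finset.card_singleton, pow_one]
  · intro v' hv' hne
    obtain ⟨w1, rfl⟩ := FI.BaseChange.exists_under_eq K L v'
    rw [ValNorm.valuation_norm S hur w1 hv' c]
    refine Finset.prod_eq_one fun σ _ => hc' _ ?_ ?_
    · change (FI.GaloisVal.comapPl K L σ w1).under (𝓞 K) ∉ S
      rw [FI.GaloisVal.comapPl_under]
      exact hv'
    · intro h
      apply hne
      rw [← h, FI.GaloisVal.comapPl_under]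

end L

end Fermat.Agent.S55.NIT.Abs
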