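/-
S55 / NIT / Abs, node AB-6: if `Cl_S(L) = 1`, elements that are local norms outside `S` are
`S`-units times global norms.
-/
import Fermat.Agent.S55.NIT.Abs.GamSCore
import Fermat.Agent.S55.NIT.Abs.KummerUnram
import Fermat.Agent.S55.NIT.Abs.ValNorm
import Fermat.Agent.S55.NIT.Abs.InertVal

set_option autoImplicit false

namespace Fermat.Agent.S55.NIT.Abs

open IsDedekindDomain NumberField Fermat.Agent.S55.NIT

universe u

variable {p : ℕ} {K : Type u} [Field K] [NumberField K]

variable {L : Type u} [Field L] [NumberField L] [Algebra K L] [IsGalois K L]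

/-- AB-6 (file GamS.lean). If `Cl_S(L) = 1`, elements that are local norms outside `S` are
`S`-units times global norms. -/
theorem exists_mul_norm_of_mem_GamS (hp : p.Prime) (hdeg : Module.finrank K L = p)
    (D : SI.LocData p K) (b : Kˣ) (β : L) (hβ : β ^ p = algebraMap K L (b : K))
    (hb : ∀ z : Kˣ, z ^ p ≠ b)
    (hc : CompatWith p K D L b) (S : Finset (SI.Pl K))
    (hpS : ∀ v : SI.Pl K, SI.Over p K v → v ∈ S) (hbS : b ∈ SI.KS K S)
    (hClL : FI.ClassGen L (FI.above K L (S : Set (FI.Pl K))))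
    (g : Kˣ) (hg : g ∈ SI.GamS p K D b S) :
    ∃ (k : Kˣ) (z : Lˣ), k ∈ SI.KS K S ∧ g = k * FI.normU K L z :=
  exists_mul_norm_of_mem_GamS_aux D b S hpS hbS hClL
    (fun w hw c h1 h2 => val_norm_generator hp hdeg (S : Set (FI.Pl K))
      (unramOutside_of_kummer hp hdeg b β hβ hb S hpS hbS) w hw c h1 h2)
    (fun v hv hbv hns g hg => val_of_mem_nrm_of_nonsplit hp D b hc v hv hbv hns g hg) g hg

end Fermat.Agent.S55.NIT.Abs
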