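/-
S55 / NIT / Abs, node AB-7: existence of a good finite set of places.  Owner: helper4.
-/
import Fermat.Agent.S55.NIT.Abs.Basic
import Fermat.Agent.S55.NIT.FI.ExistsS

set_option autoImplicit false

namespace Fermat.Agent.S55.NIT.Abs

open IsDedekindDomain NumberField Fermat.Agent.S55.NIT

universe u

variable {K : Type u} [Field K] [NumberField K]
variable {L : Type u} [Field L] [NumberField L] [Algebra K L] [IsGalois K L]

/-- AB-7. -/
theorem exists_good_S (S₀ : Finset (SI.Pl K)) :
    ∃ S : Finset (SI.Pl K), S₀ ⊆ S ∧ SI.ClTriv K S ∧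
      FI.ClassGen L (FI.above K L (S : Set (FI.Pl K))) := by
  classical
  obtain ⟨SL, -, hSL⟩ := FI.exists_classGen L ∅
  obtain ⟨S, hS, hcl⟩ := FI.exists_classGen K (S₀ ∪ SL.image (fun w => w.under (𝓞 K)))
  refine ⟨S, Finset.union_subset_left hS, (clTriv_iff_classGen S).2 hcl, hSL.mono ?_⟩
  intro w hw
  have : w.under (𝓞 K) ∈ S :=
    hS (Finset.mem_union_right _ (Finset.mem_image_of_mem _ (Finset.mem_coe.1 hw)))
  exact Finset.mem_coe.2 this

end Fermat.Agent.S55.NIT.Abs
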