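/-
S55 / NIT / Abs, node AB-9 : the abstract Hasse norm theorem for Kummer extensions of degree `p`.
-/
import Fermat.Agent.S55.NIT.Abs.Defs
import Fermat.Agent.S55.NIT.FI.Hilbert90S

set_option autoImplicit false

namespace Fermat.Agent.S55.NIT.Abs

open IsDedekindDomain NumberField Fermat.Agent.S55.NIT Fermat.Agent.S55.NIT.Abs

universe u

variable {p : ℕ} {K : Type u} [Field K] [NumberField K]

/-- Only finitely many primes lie over `p`. -/
theorem hnt_finite_over (hp : p.Prime) : {v : SI.Pl K | SI.Over p K v}.Finite := by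
  have hp0 : Ideal.span {(p : 𝓞 K)} ≠ 0 := by
    rw [Ne, Ideal.zero_eq_bot, Ideal.span_singleton_eq_bot]
    exact_mod_cast hp.ne_zero
  refine (Ideal.finite_factors hp0).subset fun v hv => ?_
  exact Ideal.dvd_span_singleton.2 hv

section L

variable {L : Type u} [Field L] [NumberField L] [Algebra K L] [IsGalois K L]

/-- A Galois group of prime order has a generator. -/
theorem hnt_exists_generator (hp : p.Prime) (hdeg : Module.finrank K L = p) :
    ∃ σ : L ≃ₐ[K] L, ∀ τ : L ≃ₐ[K] L, τ ∈ Subgroup.zpowers σ := by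
  have : Fact p.Prime := ⟨hp⟩
  have hcard : Nat.card (L ≃ₐ[K] L) = p := by
    rw [IsGalois.card_aut_eq_finrank, hdeg]
  have : IsCyclic (L ≃ₐ[K] L) := isCyclic_of_prime_card hcard
  exact IsCyclic.exists_generator

/-- The Hasse norm theorem from the nodes AB-7 and AB-8 (in the form of hypotheses). -/
theorem hasse_norm_of_nodes (hp : p.Prime) (hdeg : Module.finrank K L = p)
    (D : SI.LocData p K) (b : Kˣ)
    (hGoodS : ∀ S₀ : Finset (SI.Pl K), ∃ S : Finset (SI.Pl K), S₀ ⊆ S ∧ SI.ClTriv K S ∧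
      FI.ClassGen L (FI.above K L (S : Set (FI.Pl K))))
    (hHNTUnits : ∀ (σ : L ≃ₐ[K] L) (_ : ∀ τ : L ≃ₐ[K] L, τ ∈ Subgroup.zpowers σ)
      (S : Finset (SI.Pl K)) (_ : ∀ v : SI.Pl K, SI.Over p K v → v ∈ S) (_ : b ∈ SI.KS K S)
      (_ : SI.ClTriv K S) (_ : FI.ClassGen L (FI.above K L (S : Set (FI.Pl K))))
      (x : Kˣ) (_ : x ∈ SI.KS K S) (_ : ∀ v ∈ S, x ∈ D.nrm b v),
      x ∈ FI.normImage K L (S : Set (FI.Pl K)))
    (x : Kˣ) (hx : ∀ v : SI.Pl K, x ∈ D.nrm b v) :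
    ∃ z : Lˣ, FI.normU K L z = x := by
  classical
  have hfb := FI.h90_finite_valuation_ne_one K (b : K) b.ne_zero
  have hfx := FI.h90_finite_valuation_ne_one K (x : K) x.ne_zero
  have hfp := hnt_finite_over (K := K) hp
  obtain ⟨S, hS₀, hCl, hClL⟩ := hGoodS (hfp.toFinset ∪ hfb.toFinset ∪ hfx.toFinset)
  obtain ⟨σ, hσ⟩ := hnt_exists_generator (K := K) (L := L) hp hdeg
  have hpS : ∀ v : SI.Pl K, SI.Over p K v → v ∈ S := fun v hv =>
    hS₀ (Finset.mem_union_left _ (Finset.mem_union_left _ (hfp.mem_toFinset.2 hv)))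
  have hbS : b ∈ SI.KS K S := by
    intro v hv
    by_contra hne
    exact hv (Finset.mem_coe.2
      (hS₀ (Finset.mem_union_left _ (Finset.mem_union_right _ (hfb.mem_toFinset.2 hne)))))
  have hxS : x ∈ SI.KS K S := by
    intro v hv
    by_contra hne
    exact hv (Finset.mem_coe.2 (hS₀ (Finset.mem_union_right _ (hfx.mem_toFinset.2 hne))))
  obtain ⟨z, _, hz⟩ := hHNTUnits σ hσ S hpS hbS hCl hClL x hxS (fun v _ => hx v)
  exact ⟨z, hz⟩

end L

end Fermat.Agent.S55.NIT.Abs
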