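/-
S55 / NIT / Abs : node AB-8, core (owner helper274).
The Hasse norm theorem for `S`-units, with the other nodes (AB-2, AB-3, AB-4, AB-6, SI-K, FI-9,
FI-13) as explicit hypotheses.
-/
import Fermat.Agent.S55.NIT.Abs.Defs

set_option autoImplicit false

namespace Fermat.Agent.S55.NIT.Abs

open IsDedekindDomain NumberField Fermat.Agent.S55.NIT

universe u

/-- The counting argument, in abstract form. -/
theorem mem_of_card_counting {G Q : Type*} [Group G] [Group Q] [Finite Q] (ν : G →* Q)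
    (U Nm : Subgroup G) (hNU : Nm ≤ U) (hNν : Nm ≤ ν.ker) {p ns : ℕ} (hp : 0 < p)
    (hidx : (U.map ν).index ∣ p) (hQ : p ^ ns ≤ Nat.card Q)
    (hcard : Nm.relIndex U * p = p ^ ns) {x : G} (hxU : x ∈ U) (hx : ν x = 1) : x ∈ Nm := by
  set K₀ : Subgroup G := ν.ker ⊓ U with hK₀
  have h1 : Nm.relIndex K₀ * K₀.relIndex U = Nm.relIndex U :=
    Subgroup.relIndex_mul_relIndex _ _ _ (le_inf hNν hNU) inf_le_right
  have h2 : K₀.relIndex U = Nat.card (U.map ν) := by
    rw [hK₀, Subgroup.inf_relIndex_right, Subgroup.relIndex_ker]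
  have h3 : Nat.card (U.map ν) * (U.map ν).index = Nat.card Q := Subgroup.card_mul_index _
  have hidx' : (U.map ν).index ≤ p := Nat.le_of_dvd hp hidx
  set a := Nm.relIndex K₀
  set c := Nat.card (U.map ν)
  set r := Nm.relIndex U
  rw [h2] at h1
  have hr : 0 < r * p := by rw [hcard]; exact pow_pos hp ns
  have hr0 : 0 < r := Nat.pos_of_mul_pos_right hr
  have hc0 : 0 < c := by
    rcases Nat.eq_zero_or_pos c with h | h
    · rw [h, mul_zero] at h1; omega
    · exact h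
  have ha0 : 0 < a := by
    rcases Nat.eq_zero_or_pos a with h | h
    · rw [h, zero_mul] at h1; omega
    · exact h
  have h4 : a * (c * p) ≤ 1 * (c * p) := by
    calc a * (c * p) = r * p := by rw [← h1]; ring
      _ = p ^ ns := hcard
      _ ≤ Nat.card Q := hQ
      _ = c * (U.map ν).index := h3.symm
      _ ≤ c * p := Nat.mul_le_mul_left _ hidx'
      _ = 1 * (c * p) := (one_mul _).symm
  have h5 : a ≤ 1 := Nat.le_of_mul_le_mul_right h4 (Nat.mul_pos hc0 hp)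
  have h6 : a = 1 := le_antisymm h5 ha0
  exact (Subgroup.relIndex_eq_one.mp h6) ⟨hx, hxU⟩

variable {p : ℕ} {K : Type u} [Field K] [NumberField K]

theorem KS_le_GamS (D : SI.LocData p K) (b : Kˣ) (S : Finset (SI.Pl K))
    (hpS : ∀ v : SI.Pl K, SI.Over p K v → v ∈ S) (hbS : b ∈ SI.KS K S) :
    SI.KS K S ≤ SI.GamS p K D b S := by
  intro x hx
  rw [SI.GamS, Subgroup.mem_iInf]
  rintro ⟨v, hv⟩
  have hv' : v ∉ (S : Set (SI.Pl K)) := by simpa using hv
  exact D.unit_le_nrm b v (fun h => hv (hpS v h)) (hbS v hv') (hx v hv')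

theorem diag_eq_one_iff (H : SI.Pl K → Subgroup Kˣ) (S : Finset (SI.Pl K)) (x : Kˣ) :
    SI.diag K H S x = 1 ↔ ∀ v ∈ S, x ∈ H v := by
  constructor
  · intro h v hv
    have := congrFun h ⟨v, hv⟩
    simpa using this
  · intro h
    funext v
    simpa using h v.1 v.2

variable {L : Type u} [Field L] [NumberField L] [Algebra K L]

theorem img_KS_eq_img_GamS (D : SI.LocData p K) (b : Kˣ) (hc : CompatWith p K D L b)
    (S : Finset (SI.Pl K)) (hpS : ∀ v : SI.Pl K, SI.Over p K v → v ∈ S) (hbS : b ∈ SI.KS K S)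
    (h6 : ∀ g ∈ SI.GamS p K D b S, ∃ (k : Kˣ) (z : Lˣ), k ∈ SI.KS K S ∧ g = k * FI.normU K L z) :
    SI.img K (D.nrm b) S (SI.KS K S) = SI.img K (D.nrm b) S (SI.GamS p K D b S) := by
  apply le_antisymm
  · exact Subgroup.map_mono (KS_le_GamS D b S hpS hbS)
  · rintro _ ⟨g, hg, rfl⟩
    obtain ⟨k, z, hk, rfl⟩ := h6 g hg
    refine ⟨k, hk, ?_⟩
    rw [map_mul, (diag_eq_one_iff _ _ _).mpr fun v _ => hc.norm_mem v z]
    exact (mul_one (SI.diag K (D.nrm b) S k)).symm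

/-- AB-8 with the other nodes as hypotheses. -/
theorem mem_normImage_core (hp : p.Prime) (D : SI.LocData p K) (b : Kˣ)
    (hc : CompatWith p K D L b) (S : Finset (SI.Pl K))
    (hpS : ∀ v : SI.Pl K, SI.Over p K v → v ∈ S) (hbS : b ∈ SI.KS K S)
    (h6 : ∀ g ∈ SI.GamS p K D b S, ∃ (k : Kˣ) (z : Lˣ), k ∈ SI.KS K S ∧ g = k * FI.normU K L z)
    (hK : (SI.img K (D.nrm b) S (SI.GamS p K D b S)).index ∣ p)
    (h3 : Finite (SI.Tgt K (D.nrm b) S) ∧
      p ^ (FI.nonsplit K L S).card ≤ Nat.card (SI.Tgt K (D.nrm b) S))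
    (h9 : FI.normImage K L (S : Set (FI.Pl K)) ≤ FI.sU K (S : Set (FI.Pl K)))
    (h13 : Nat.card (FI.sU K (S : Set (FI.Pl K)) ⧸
      (FI.normImage K L (S : Set (FI.Pl K))).subgroupOf (FI.sU K (S : Set (FI.Pl K)))) * p
        = p ^ (FI.nonsplit K L S).card)
    (x : Kˣ) (hxS : x ∈ SI.KS K S) (hx : ∀ v ∈ S, x ∈ D.nrm b v) :
    x ∈ FI.normImage K L (S : Set (FI.Pl K)) := by
  have := h3.1
  refine mem_of_card_counting (SI.diag K (D.nrm b) S) (SI.KS K S)
    (FI.normImage K L (S : Set (FI.Pl K))) h9 ?_ hp.pos ?_ h3.2 h13 hxS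
    ((diag_eq_one_iff _ _ _).mpr hx)
  · rintro _ ⟨z, -, rfl⟩
    rw [MonoidHom.mem_ker]
    exact (diag_eq_one_iff _ _ _).mpr fun v _ => hc.norm_mem v z
  · have h := img_KS_eq_img_GamS D b hc S hpS hbS h6
    rw [SI.img] at h
    rw [h]
    exact hK

end Fermat.Agent.S55.NIT.Abs
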