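/-
S55 / NIT / Abs : node AB-8, second layer (owner helper274).
Everything is plugged in except the second inequality SI-K (with AB-4), which is a hypothesis.
-/
import Fermat.Agent.S55.NIT.Abs.HNTUnitsCore
import Fermat.Agent.S55.NIT.Abs.Basic
import Fermat.Agent.S55.NIT.Abs.CardNrm
import Fermat.Agent.S55.NIT.Abs.GamS
import Fermat.Agent.S55.NIT.FI.Main

set_option autoImplicit false

namespace Fermat.Agent.S55.NIT.Abs

open IsDedekindDomain NumberField Fermat.Agent.S55.NIT

universe u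

variable {p : ℕ} {K : Type u} [Field K] [NumberField K]

variable {L : Type u} [Field L] [NumberField L] [Algebra K L] [IsGalois K L]

/-- AB-8 with the second inequality as a hypothesis. -/
theorem mem_normImage_of_index_dvd (hp : p.Prime) (hp2 : p ≠ 2) (hT : FI.TateLemma.{u} p)
    {ζ : K} (hζ : IsPrimitiveRoot ζ p) (hdeg : Module.finrank K L = p)
    (σ : L ≃ₐ[K] L) (hσ : ∀ τ : L ≃ₐ[K] L, τ ∈ Subgroup.zpowers σ)
    (D : SI.LocData p K) (hD : Compat p K D)
    (b : Kˣ) (β : L) (hβ : β ^ p = algebraMap K L (b : K))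
    (hb : ∀ z : Kˣ, z ^ p ≠ b)
    (S : Finset (SI.Pl K)) (hpS : ∀ v : SI.Pl K, SI.Over p K v → v ∈ S) (hbS : b ∈ SI.KS K S)
    (hCl : SI.ClTriv K S) (hClL : FI.ClassGen L (FI.above K L (S : Set (FI.Pl K))))
    (hK : (SI.img K (D.nrm b) S (SI.GamS p K D b S)).index ∣ p)
    (x : Kˣ) (hxS : x ∈ SI.KS K S) (hx : ∀ v ∈ S, x ∈ D.nrm b v) :
    x ∈ FI.normImage K L (S : Set (FI.Pl K)) := by
  have hc : CompatWith p K D L b := hD L hdeg b β hβ hb
  have : Fact p.Prime := ⟨hp⟩
  exact mem_normImage_core hp D b hc S hpS hbS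
    (fun g hg => exists_mul_norm_of_mem_GamS hp hdeg D b β hβ hb hc S hpS hbS hClL g hg)
    hK (card_tgt_nrm_ge hp D b hc S) (FI.normImage_le K L _)
    (FI.card_quot_normImage K L p hp2 hT hdeg hζ σ hσ S
      (unramOutside_of_kummer hp hdeg b β hβ hb S hpS hbS) ((clTriv_iff_classGen S).mp hCl))
    x hxS hx

end Fermat.Agent.S55.NIT.Abs
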