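/-
S55 / NIT / Abs, node AB-8.
-/
import Fermat.Agent.S55.NIT.Abs.FirstIneq
import Fermat.Agent.S55.NIT.Abs.HNTUnitsAux
import Fermat.Agent.S55.NIT.SI.MainNrm

set_option autoImplicit false

namespace Fermat.Agent.S55.NIT.Abs

open IsDedekindDomain NumberField Fermat.Agent.S55.NIT Fermat.Agent.S55.NIT.Abs

universe u

variable {p : ℕ} {K : Type u} [Field K] [NumberField K]

section L

variable {L : Type u} [Field L] [NumberField L] [Algebra K L] [IsGalois K L]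

/-- AB-8. Hasse norm theorem for `S`-units, `S` good. -/
theorem mem_normImage_of_forall_mem_nrm (hp : p.Prime) (hp2 : p ≠ 2) (hT : FI.TateLemma.{u} p)
    {ζ : K} (hζ : IsPrimitiveRoot ζ p) (hdeg : Module.finrank K L = p)
    (σ : L ≃ₐ[K] L) (hσ : ∀ τ : L ≃ₐ[K] L, τ ∈ Subgroup.zpowers σ)
    (D : SI.LocData p K) (hD : Compat p K D) (hU : SI.SUnitIndex p K)
    (b : Kˣ) (β : L) (hβ : β ^ p = algebraMap K L (b : K))
    (hb : ∀ z : Kˣ, z ^ p ≠ b)
    (S : Finset (SI.Pl K)) (hpS : ∀ v : SI.Pl K, SI.Over p K v → v ∈ S) (hbS : b ∈ SI.KS K S)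
    (hCl : SI.ClTriv K S) (hClL : FI.ClassGen L (FI.above K L (S : Set (FI.Pl K))))
    (x : Kˣ) (hxS : x ∈ SI.KS K S) (hx : ∀ v ∈ S, x ∈ D.nrm b v) :
    x ∈ FI.normImage K L (S : Set (FI.Pl K)) :=
  mem_normImage_of_index_dvd hp hp2 hT hζ hdeg σ hσ D hD b β hβ hb S hpS hbS hCl hClL
    (SI.index_img_nrm_dvd hp hp2 hζ D (firstIneq_of_compat hp hp2 hT hζ D hD) hU S hpS hCl b hbS hb)
    x hxS hx

end L

end Fermat.Agent.S55.NIT.Abs
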