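/-
S55 / NIT / Abs, node AB-10 : the second inequality (N1) for every finite set of places `T`.
Owner: helper184.
-/
import Fermat.Agent.S55.NIT.Abs.Basic
import Fermat.Agent.S55.NIT.Abs.HNT
import Fermat.Agent.S55.NIT.FI.ExistsS
import Fermat.Agent.S55.NIT.AllT
import Fermat.Agent.S55.NIT.SI.MainNrm
import Fermat.Agent.S55.NIT.Abs.FirstIneq

set_option autoImplicit false

namespace Fermat.Agent.S55.NIT.Abs

open IsDedekindDomain NumberField Fermat.Agent.S55.NIT Fermat.Agent.S55.NIT.Abs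

universe u

variable {p : ℕ} {K : Type u} [Field K] [NumberField K]

/-- AB-10 from the second inequality cut down to a good `S` (node SI-K, as a hypothesis). -/
theorem index_img_GamS_dvd_of (hp : p.Prime) (D : SI.LocData p K) (b : Kˣ)
    (hMainNrm : ∀ S : Finset (SI.Pl K), (∀ v : SI.Pl K, SI.Over p K v → v ∈ S) →
      SI.ClTriv K S → b ∈ SI.KS K S → (SI.img K (D.nrm b) S (SI.GamS p K D b S)).index ∣ p)
    (T : Finset (SI.Pl K)) :
    (SI.img K (D.nrm b) T (SI.GamS p K D b T)).index ∣ p := by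
  classical
  have hfb := FI.h90_finite_valuation_ne_one K (b : K) b.ne_zero
  have hfp := hnt_finite_over (K := K) hp
  obtain ⟨S, hS₀, hCl⟩ := FI.exists_classGen K (T ∪ hfp.toFinset ∪ hfb.toFinset)
  have hTS : T ⊆ S := fun v hv =>
    hS₀ (Finset.mem_union_left _ (Finset.mem_union_left _ hv))
  have hpS : ∀ v : SI.Pl K, SI.Over p K v → v ∈ S := fun v hv =>
    hS₀ (Finset.mem_union_left _ (Finset.mem_union_right _ (hfp.mem_toFinset.2 hv)))
  have hbS : b ∈ SI.KS K S := by
    intro v hv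
    by_contra hne
    exact hv (Finset.mem_coe.2 (hS₀ (Finset.mem_union_right _ (hfb.mem_toFinset.2 hne))))
  exact (index_img_dvd_of_subset (D.nrm b) hTS).trans
    (hMainNrm S hpS ((clTriv_iff_classGen S).2 hCl) hbS)

/-- AB-10 (file IndexAll.lean). **Second inequality (N1)** for every finite set of places `T`. -/
theorem index_img_GamS_dvd (hp : p.Prime) (hp2 : p ≠ 2) (hT : FI.TateLemma.{u} p)
    {ζ : K} (hζ : IsPrimitiveRoot ζ p) (D : SI.LocData p K) (hD : Compat p K D)
    (hU : SI.SUnitIndex p K) (b : Kˣ) (hb : ∀ z : Kˣ, z ^ p ≠ b) (T : Finset (SI.Pl K)) :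
    (SI.img K (D.nrm b) T (SI.GamS p K D b T)).index ∣ p :=
  index_img_GamS_dvd_of hp D b
    (fun S hpS hCl hbS => SI.index_img_nrm_dvd hp hp2 hζ D (firstIneq_of_compat hp hp2 hT hζ D hD)
      hU S hpS hCl b hbS hb) T

end Fermat.Agent.S55.NIT.Abs
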