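/-
S55 / NIT / Abs, node AB-10a: monotonicity of the index of the image of `⨅_{v∉T} H v`.
-/
import Fermat.Agent.S55.NIT.SI.Defs

set_option autoImplicit false

namespace Fermat.Agent.S55.NIT.Abs

open IsDedekindDomain NumberField Fermat.Agent.S55.NIT

universe u

variable {K : Type u} [Field K] [NumberField K]

open Classical in
/-- Extension by `1` from `T` to `S`. -/
noncomputable def extTgt (H : SI.Pl K → Subgroup Kˣ) (T S : Finset (SI.Pl K)) :
    SI.Tgt K H T →* SI.Tgt K H S where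
  toFun x := fun v => if h : (v : SI.Pl K) ∈ T then x ⟨v, h⟩ else 1
  map_one' := by
    funext v
    by_cases h : (v : SI.Pl K) ∈ T <;> simp [h]
  map_mul' x y := by
    funext v
    by_cases h : (v : SI.Pl K) ∈ T
    · simp [h]
    · simp only [h, dite_false, Pi.mul_apply]
      exact (mul_one (1 : Kˣ ⧸ H v)).symm

theorem extTgt_apply_of_mem (H : SI.Pl K → Subgroup Kˣ) (T S : Finset (SI.Pl K))
    (x : SI.Tgt K H T) (v : S) (h : (v : SI.Pl K) ∈ T) : extTgt H T S x v = x ⟨v, h⟩ := by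
  simp [extTgt, h]

theorem extTgt_apply_of_notMem (H : SI.Pl K → Subgroup Kˣ) (T S : Finset (SI.Pl K))
    (x : SI.Tgt K H T) (v : S) (h : (v : SI.Pl K) ∉ T) : extTgt H T S x v = 1 := by
  simp [extTgt, h]

theorem comap_extTgt_img (H : SI.Pl K → Subgroup Kˣ) (T S : Finset (SI.Pl K)) (hTS : T ⊆ S) :
    (SI.img K H S (⨅ v : {v : SI.Pl K // v ∉ S}, H v)).comap (extTgt H T S) =
      SI.img K H T (⨅ v : {v : SI.Pl K // v ∉ T}, H v) := by
  ext x
  rw [Subgroup.mem_comap]
  constructor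
  · rintro ⟨g, hg, hgx⟩
    have hg' : ∀ v : SI.Pl K, v ∉ S → g ∈ H v := fun v hv =>
      Subgroup.mem_iInf.mp hg ⟨v, hv⟩
    refine ⟨g, ?_, ?_⟩
    · refine Subgroup.mem_iInf.mpr ?_
      rintro ⟨v, hv⟩
      by_cases hvS : v ∈ S
      · have h1 := congrFun hgx ⟨v, hvS⟩
        rw [extTgt_apply_of_notMem H T S x ⟨v, hvS⟩ hv, SI.diag_apply] at h1
        exact (QuotientGroup.eq_one_iff g).mp h1
      · exact hg' v hvS
    · funext v
      have h1 := congrFun hgx ⟨v, hTS v.2⟩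
      rw [extTgt_apply_of_mem H T S x ⟨v, hTS v.2⟩ v.2, SI.diag_apply] at h1
      rw [SI.diag_apply]
      exact h1
  · rintro ⟨g, hg, rfl⟩
    have hg' : ∀ v : SI.Pl K, v ∉ T → g ∈ H v := fun v hv =>
      Subgroup.mem_iInf.mp hg ⟨v, hv⟩
    refine ⟨g, ?_, ?_⟩
    · refine Subgroup.mem_iInf.mpr ?_
      rintro ⟨v, hv⟩
      exact hg' v fun h => hv (hTS h)
    · funext v
      by_cases hvT : (v : SI.Pl K) ∈ T
      · rw [extTgt_apply_of_mem H T S _ v hvT, SI.diag_apply, SI.diag_apply]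
      · rw [extTgt_apply_of_notMem H T S _ v hvT, SI.diag_apply]
        exact (QuotientGroup.eq_one_iff g).mpr (hg' v hvT)

/-- AB-10a. Pure group theory: for `T ⊆ S` the map `C_T → C_S` (extension
by `1`) is injective, `C_T = (∏_{v∈T} Kˣ/H v) / img (⨅_{v∉T} H v)`; hence the index for `T` divides
the index for `S`. -/
theorem index_img_dvd_of_subset (H : SI.Pl K → Subgroup Kˣ) (T S : Finset (SI.Pl K)) (hTS : T ⊆ S)
    (hfin : ∀ v ∈ S, (H v).index ≠ 0) :
    (SI.img K H T (⨅ v : {v : SI.Pl K // v ∉ T}, H v)).index ∣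
      (SI.img K H S (⨅ v : {v : SI.Pl K // v ∉ S}, H v)).index := by
  rw [← comap_extTgt_img H T S hTS, Subgroup.index_comap]
  have hcomm : ∀ a b : SI.Tgt K H S, a * b = b * a := by
    intro a b
    funext v
    exact mul_comm (a v) (b v)
  have hN : (SI.img K H S (⨅ v : {v : SI.Pl K // v ∉ S}, H v)).Normal :=
    ⟨fun n hn g => by
      have h1 : g * n * g⁻¹ = n := by
        rw [hcomm g n]
        exact mul_inv_cancel_right n g
      rw [h1]
      exact hn⟩
  exact Subgroup.relIndex_dvd_index_of_normal _ _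

end Fermat.Agent.S55.NIT.Abs
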