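/-
S55 / NIT / Abs, nodes AB-9 and AB-10: the abstract Hasse norm theorem and second inequality.
-/
import Fermat.Agent.S55.NIT.Abs.GoodS
import Fermat.Agent.S55.NIT.Abs.HNT
import Fermat.Agent.S55.NIT.Abs.HNTUnits
import Fermat.Agent.S55.NIT.Abs.IndexAll

set_option autoImplicit false

namespace Fermat.Agent.S55.NIT.Abs

open IsDedekindDomain NumberField Fermat.Agent.S55.NIT Fermat.Agent.S55.NIT.Abs

universe u

variable {p : ℕ} {K : Type u} [Field K] [NumberField K]

section L

variable {L : Type u} [Field L] [NumberField L] [Algebra K L] [IsGalois K L]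

/-- AB-9. **Hasse norm theorem** for Kummer extensions of degree `p` (abstract local data). -/
theorem hasse_norm (hp : p.Prime) (hp2 : p ≠ 2) (hT : FI.TateLemma.{u} p)
    {ζ : K} (hζ : IsPrimitiveRoot ζ p) (hdeg : Module.finrank K L = p)
    (D : SI.LocData p K) (hD : Compat p K D) (hU : SI.SUnitIndex p K)
    (b : Kˣ) (β : L) (hβ : β ^ p = algebraMap K L (b : K))
    (hb : ∀ z : Kˣ, z ^ p ≠ b)
    (x : Kˣ) (hx : ∀ v : SI.Pl K, x ∈ D.nrm b v) :
    ∃ z : Lˣ, FI.normU K L z = x :=
  hasse_norm_of_nodes hp hdeg D b (fun S₀ => exists_good_S S₀)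
    (fun σ hσ S hpS hbS hCl hClL x hxS hx =>
      mem_normImage_of_forall_mem_nrm hp hp2 hT hζ hdeg σ hσ D hD hU b β hβ hb S hpS hbS hCl hClL
        x hxS hx) x hx

end L

-- AB-10 (`index_img_GamS_dvd`, the second inequality N1) is in `Abs/IndexAll.lean`.

end Fermat.Agent.S55.NIT.Abs
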